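import Mathlib

/-!
# Cell A2, route G, obligation C1 (COVER-EXIST) — helper912

Mathlib-only field theory.  Setting: `F` a field of characteristic zero, `τ : F ≃+* F` a ring
automorphism of finite order (`τ ^ r = 1`, `0 < r`), `0 < m`, `g : F`.

* `coverPoly τ r m g = ∏_{i<r} (X^m - τ^i g)`, a `τ`-invariant polynomial;
* `coverField τ r m g` : its splitting field inside `AlgebraicClosure F` (finite Galois over `F`);
* `coverLift τ r m g hr hm hτ : L ≃+* L` : a lift `τ̃` of `τ` to `L = coverField τ r m g`;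
* `coverRoot τ r m g hr hm : L` : an element `y` with `y ^ m = g`;
* `coverGal τ r m g : Subgroup (L ≃+* L)` : the Galois group `Γ = Gal(L/F)` inside `L ≃+* L`,
  normalised by `τ̃` (`coverLift_conj_mem_coverGal` = `hnorm` of `H12.wallG`);
* `coverGal_smul_root` : every `σ ∈ Γ` multiplies `y` by a `τ̃`-fixed root of unity
  (= `hζ` of `H12.wallG`), if `F` contains a primitive `m`-th root of unity fixed by `τ`;
* `mem_range_of_coverGal_fixed` : the fixed field of `Γ` is `F`;
* `exists_pow_mul_eq_of_coverGal_fixed` : the conclusion of `H12.wallG` for `y` gives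
  `τ g = h ^ m * g` with `h : F` (the Kummer conclusion);
* `coverSeq i = τ̃^i y`, `coverSeq_pow : (τ̃^i y)^m = τ^i g`, and
  `adjoin_coverSeq : F(τ̃^i y : i < r) = L`.
-/

set_option autoImplicit false

namespace Fermat.Agent.A2.H912

open Polynomial

noncomputable section

variable {F : Type*} [Field F]

/-! ### The lift of `τ` to the algebraic closure -/

/-- A lift of `τ` to the algebraic closure of `F`. -/
def liftCl (τ : F ≃+* F) : AlgebraicClosure F ≃+* AlgebraicClosure F :=
  IsAlgClosure.equivOfEquiv (AlgebraicClosure F) (AlgebraicClosure F) τ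

theorem liftCl_algebraMap (τ : F ≃+* F) (a : F) :
    liftCl τ (algebraMap F (AlgebraicClosure F) a) = algebraMap F (AlgebraicClosure F) (τ a) :=
  IsAlgClosure.equivOfEquiv_algebraMap (AlgebraicClosure F) (AlgebraicClosure F) τ a

/-- Semilinear evaluation: `φ (P(z)) = (τ P)(φ z)`. -/
theorem aeval_map_semilinear {K Ω : Type*} [Field K] [Field Ω] [Algebra K Ω] (τ : K →+* K)
    (φ : Ω →+* Ω) (h : ∀ a, φ (algebraMap K Ω a) = algebraMap K Ω (τ a)) (P : K[X]) (z : Ω) :
    aeval (φ z) (P.map τ) = φ (aeval z P) := by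
  rw [aeval_def, eval₂_map, aeval_def, hom_eval₂]
  congr 1
  ext a
  simp [h]

/-! ### The invariant polynomial -/

/-- `∏_{i<r} (X^m - τ^i g)`. -/
def coverPoly (τ : F ≃+* F) (r m : ℕ) (g : F) : F[X] :=
  ∏ i ∈ Finset.range r, (X ^ m - C ((τ ^ i) g))

theorem X_pow_sub_C_ne_zero' {m : ℕ} (hm : 0 < m) (a : F) : (X ^ m - C a : F[X]) ≠ 0 :=
  (monic_X_pow_sub_C a hm.ne').ne_zero

theorem coverPoly_ne_zero (τ : F ≃+* F) (r : ℕ) {m : ℕ} (hm : 0 < m) (g : F) :
    coverPoly τ r m g ≠ 0 := by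
  rw [coverPoly, Finset.prod_ne_zero_iff]
  exact fun i _ => X_pow_sub_C_ne_zero' hm _

theorem coverPoly_map (τ : F ≃+* F) {r : ℕ} {m : ℕ} (hm : 0 < m) (hτ : τ ^ r = 1) (g : F) :
    (coverPoly τ r m g).map (τ : F →+* F) = coverPoly τ r m g := by
  have h1 : (coverPoly τ r m g).map (τ : F →+* F) =
      ∏ i ∈ Finset.range r, (X ^ m - C ((τ ^ (i + 1)) g)) := by
    rw [coverPoly, Polynomial.map_prod]
    refine Finset.prod_congr rfl fun i _ => ?_
    rw [Polynomial.map_sub, Polynomial.map_pow, map_X, map_C, pow_succ']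
    rfl
  rw [h1]
  have h2 := Finset.prod_range_succ' (fun i => (X ^ m - C ((τ ^ i) g) : F[X])) r
  have h3 := Finset.prod_range_succ (fun i => (X ^ m - C ((τ ^ i) g) : F[X])) r
  rw [h3] at h2
  simp only [hτ, pow_zero] at h2
  exact (mul_right_cancel₀ (X_pow_sub_C_ne_zero' hm _) h2).symm

theorem coverPoly_map_symm (τ : F ≃+* F) {r : ℕ} {m : ℕ} (hm : 0 < m) (hτ : τ ^ r = 1) (g : F) :
    (coverPoly τ r m g).map (τ.symm : F →+* F) = coverPoly τ r m g := by
  conv_lhs => rw [← coverPoly_map τ hm hτ g]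
  rw [Polynomial.map_map]
  have : (τ.symm : F →+* F).comp (τ : F →+* F) = RingHom.id F := by
    ext a; simp
  rw [this, Polynomial.map_id]

theorem aeval_coverPoly_eq_zero_iff (τ : F ≃+* F) (r m : ℕ) (g : F) {Ω : Type*} [Field Ω]
    [Algebra F Ω] (z : Ω) :
    aeval z (coverPoly τ r m g) = 0 ↔ ∃ i < r, z ^ m = algebraMap F Ω ((τ ^ i) g) := by
  rw [coverPoly, map_prod, Finset.prod_eq_zero_iff]
  constructor
  · rintro ⟨i, hi, h⟩
    refine ⟨i, Finset.mem_range.1 hi, ?_⟩
    simpa [sub_eq_zero] using h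
  · rintro ⟨i, hi, h⟩
    refine ⟨i, Finset.mem_range.2 hi, ?_⟩
    simp [h]

/-! ### The cover field -/

/-- The splitting field of `coverPoly` inside the algebraic closure. -/
def coverField (τ : F ≃+* F) (r m : ℕ) (g : F) : IntermediateField F (AlgebraicClosure F) :=
  IntermediateField.adjoin F ((coverPoly τ r m g).rootSet (AlgebraicClosure F))

instance coverField_isSplittingField (τ : F ≃+* F) (r m : ℕ) (g : F) :
    IsSplittingField F (coverField τ r m g) (coverPoly τ r m g) :=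
  IntermediateField.adjoin_rootSet_isSplittingField (IsAlgClosed.splits _)

instance coverField_finiteDimensional (τ : F ≃+* F) (r m : ℕ) (g : F) :
    FiniteDimensional F (coverField τ r m g) :=
  IsSplittingField.finiteDimensional _ (coverPoly τ r m g)

instance coverField_normal (τ : F ≃+* F) (r m : ℕ) (g : F) :
    Normal F (coverField τ r m g) :=
  Normal.of_isSplittingField (coverPoly τ r m g)

instance coverField_isGalois [CharZero F] (τ : F ≃+* F) (r m : ℕ) (g : F) :
    IsGalois F (coverField τ r m g) where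

theorem liftCl_mem_rootSet (τ : F ≃+* F) {r m : ℕ} (hm : 0 < m) (hτ : τ ^ r = 1) (g : F)
    {z : AlgebraicClosure F} (hz : z ∈ (coverPoly τ r m g).rootSet (AlgebraicClosure F)) :
    liftCl τ z ∈ (coverPoly τ r m g).rootSet (AlgebraicClosure F) := by
  rw [mem_rootSet] at hz ⊢
  refine ⟨hz.1, ?_⟩
  have := aeval_map_semilinear (τ : F →+* F) (liftCl τ : AlgebraicClosure F →+* AlgebraicClosure F)
    (fun a => liftCl_algebraMap τ a) (coverPoly τ r m g) z
  rw [coverPoly_map τ hm hτ g] at this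
  rw [RingHom.coe_coe] at this
  rw [this, hz.2, map_zero]

theorem liftCl_symm_algebraMap (τ : F ≃+* F) (a : F) :
    (liftCl τ).symm (algebraMap F (AlgebraicClosure F) a) =
      algebraMap F (AlgebraicClosure F) (τ.symm a) := by
  rw [RingEquiv.symm_apply_eq, liftCl_algebraMap, RingEquiv.apply_symm_apply]

theorem liftCl_symm_mem_rootSet (τ : F ≃+* F) {r m : ℕ} (hm : 0 < m) (hτ : τ ^ r = 1) (g : F)
    {z : AlgebraicClosure F} (hz : z ∈ (coverPoly τ r m g).rootSet (AlgebraicClosure F)) :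
    (liftCl τ).symm z ∈ (coverPoly τ r m g).rootSet (AlgebraicClosure F) := by
  rw [mem_rootSet] at hz ⊢
  refine ⟨hz.1, ?_⟩
  have := aeval_map_semilinear (τ.symm : F →+* F)
    ((liftCl τ).symm : AlgebraicClosure F →+* AlgebraicClosure F)
    (fun a => liftCl_symm_algebraMap τ a) (coverPoly τ r m g) z
  rw [coverPoly_map_symm τ hm hτ g] at this
  rw [RingHom.coe_coe] at this
  rw [this, hz.2, map_zero]

/-- A semilinear ring homomorphism mapping the generators into `adjoin F S` maps `adjoin F S`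
into itself. -/
theorem map_mem_adjoin_of_semilinear {Ω : Type*} [Field Ω] [Algebra F Ω] (τ : F →+* F)
    (φ : Ω →+* Ω) (h : ∀ a, φ (algebraMap F Ω a) = algebraMap F Ω (τ a)) (S : Set Ω)
    (hS : ∀ z ∈ S, φ z ∈ S) {z : Ω} (hz : z ∈ IntermediateField.adjoin F S) :
    φ z ∈ IntermediateField.adjoin F S := by
  induction hz using IntermediateField.adjoin_induction with
  | mem x hx => exact IntermediateField.subset_adjoin F S (hS x hx)
  | algebraMap a => rw [h]; exact IntermediateField.algebraMap_mem _ _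
  | add x y _ _ hx hy => rw [map_add]; exact add_mem hx hy
  | inv x _ hx => rw [map_inv₀]; exact inv_mem hx
  | mul x y _ _ hx hy => rw [map_mul]; exact mul_mem hx hy

theorem liftCl_mem_coverField (τ : F ≃+* F) {r m : ℕ} (hm : 0 < m) (hτ : τ ^ r = 1) (g : F)
    {z : AlgebraicClosure F} (hz : z ∈ coverField τ r m g) : liftCl τ z ∈ coverField τ r m g :=
  map_mem_adjoin_of_semilinear (τ : F →+* F)
    (liftCl τ : AlgebraicClosure F →+* AlgebraicClosure F) (fun a => liftCl_algebraMap τ a) _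
    (fun _ hx => liftCl_mem_rootSet τ hm hτ g hx) hz

theorem liftCl_symm_mem_coverField (τ : F ≃+* F) {r m : ℕ} (hm : 0 < m) (hτ : τ ^ r = 1) (g : F)
    {z : AlgebraicClosure F} (hz : z ∈ coverField τ r m g) :
    (liftCl τ).symm z ∈ coverField τ r m g :=
  map_mem_adjoin_of_semilinear (τ.symm : F →+* F)
    ((liftCl τ).symm : AlgebraicClosure F →+* AlgebraicClosure F)
    (fun a => liftCl_symm_algebraMap τ a) _
    (fun _ hx => liftCl_symm_mem_rootSet τ hm hτ g hx) hz

/-- **The lift `τ̃` of `τ` to the cover field.** -/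
def coverLift (τ : F ≃+* F) (r m : ℕ) (g : F) (hm : 0 < m) (hτ : τ ^ r = 1) :
    coverField τ r m g ≃+* coverField τ r m g where
  toFun z := ⟨liftCl τ z, liftCl_mem_coverField τ hm hτ g z.2⟩
  invFun z := ⟨(liftCl τ).symm z, liftCl_symm_mem_coverField τ hm hτ g z.2⟩
  left_inv z := Subtype.ext (by simp)
  right_inv z := Subtype.ext (by simp)
  map_mul' a b := Subtype.ext (by simp)
  map_add' a b := Subtype.ext (by simp)

@[simp]
theorem coe_coverLift (τ : F ≃+* F) (r m : ℕ) (g : F) (hm : 0 < m) (hτ : τ ^ r = 1)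
    (z : coverField τ r m g) :
    ((coverLift τ r m g hm hτ z : coverField τ r m g) : AlgebraicClosure F) = liftCl τ z := rfl

theorem coverLift_algebraMap (τ : F ≃+* F) (r m : ℕ) (g : F) (hm : 0 < m) (hτ : τ ^ r = 1)
    (a : F) :
    coverLift τ r m g hm hτ (algebraMap F (coverField τ r m g) a) =
      algebraMap F (coverField τ r m g) (τ a) :=
  Subtype.ext (by
    rw [coe_coverLift]
    exact liftCl_algebraMap τ a)

theorem coverLift_symm_algebraMap (τ : F ≃+* F) (r m : ℕ) (g : F) (hm : 0 < m) (hτ : τ ^ r = 1)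
    (a : F) :
    (coverLift τ r m g hm hτ).symm (algebraMap F (coverField τ r m g) a) =
      algebraMap F (coverField τ r m g) (τ.symm a) := by
  rw [RingEquiv.symm_apply_eq, coverLift_algebraMap, RingEquiv.apply_symm_apply]

theorem coverLift_pow_algebraMap (τ : F ≃+* F) (r m : ℕ) (g : F) (hm : 0 < m) (hτ : τ ^ r = 1)
    (i : ℕ) (a : F) :
    (coverLift τ r m g hm hτ ^ i) (algebraMap F (coverField τ r m g) a) =
      algebraMap F (coverField τ r m g) ((τ ^ i) a) := by
  induction i with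
  | zero => simp
  | succ i ih =>
    rw [pow_succ', pow_succ', RingAut.mul_apply, ih, coverLift_algebraMap, RingAut.mul_apply]

/-! ### The Kummer generator -/

theorem exists_coverRoot (τ : F ≃+* F) {r m : ℕ} (g : F) (hr : 0 < r) (hm : 0 < m) :
    ∃ y : coverField τ r m g, y ^ m = algebraMap F (coverField τ r m g) g := by
  obtain ⟨y₀, hy₀⟩ := IsAlgClosed.exists_pow_nat_eq (algebraMap F (AlgebraicClosure F) g) hm
  have hmem : y₀ ∈ (coverPoly τ r m g).rootSet (AlgebraicClosure F) := by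
    rw [mem_rootSet]
    refine ⟨coverPoly_ne_zero τ r hm g, ?_⟩
    rw [aeval_coverPoly_eq_zero_iff]
    exact ⟨0, hr, by simpa using hy₀⟩
  refine ⟨⟨y₀, IntermediateField.subset_adjoin F _ hmem⟩, Subtype.ext ?_⟩
  simpa using hy₀

/-- **The Kummer generator** `y` with `y ^ m = g`. -/
def coverRoot (τ : F ≃+* F) (r m : ℕ) (g : F) (hr : 0 < r) (hm : 0 < m) : coverField τ r m g :=
  (exists_coverRoot τ g hr hm).choose

theorem coverRoot_pow (τ : F ≃+* F) (r m : ℕ) (g : F) (hr : 0 < r) (hm : 0 < m) :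
    coverRoot τ r m g hr hm ^ m = algebraMap F (coverField τ r m g) g :=
  (exists_coverRoot τ g hr hm).choose_spec

theorem coverRoot_ne_zero (τ : F ≃+* F) (r m : ℕ) {g : F} (hg : g ≠ 0) (hr : 0 < r) (hm : 0 < m) :
    coverRoot τ r m g hr hm ≠ 0 := by
  intro h
  have := coverRoot_pow τ r m g hr hm
  rw [h, zero_pow hm.ne'] at this
  exact hg ((map_eq_zero (algebraMap F (coverField τ r m g))).1 this.symm)

/-- `y_i = τ̃^i y`. -/
def coverSeq (τ : F ≃+* F) (r m : ℕ) (g : F) (hr : 0 < r) (hm : 0 < m) (hτ : τ ^ r = 1) (i : ℕ) :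
    coverField τ r m g :=
  (coverLift τ r m g hm hτ ^ i) (coverRoot τ r m g hr hm)

theorem coverSeq_zero (τ : F ≃+* F) (r m : ℕ) (g : F) (hr : 0 < r) (hm : 0 < m) (hτ : τ ^ r = 1) :
    coverSeq τ r m g hr hm hτ 0 = coverRoot τ r m g hr hm := by
  simp [coverSeq]

theorem coverLift_coverSeq (τ : F ≃+* F) (r m : ℕ) (g : F) (hr : 0 < r) (hm : 0 < m)
    (hτ : τ ^ r = 1) (i : ℕ) :
    coverLift τ r m g hm hτ (coverSeq τ r m g hr hm hτ i) = coverSeq τ r m g hr hm hτ (i + 1) := by
  rw [coverSeq, coverSeq, pow_succ', RingAut.mul_apply]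

theorem coverSeq_pow (τ : F ≃+* F) (r m : ℕ) (g : F) (hr : 0 < r) (hm : 0 < m) (hτ : τ ^ r = 1)
    (i : ℕ) :
    coverSeq τ r m g hr hm hτ i ^ m = algebraMap F (coverField τ r m g) ((τ ^ i) g) := by
  rw [coverSeq, ← map_pow, coverRoot_pow, coverLift_pow_algebraMap]

theorem coverSeq_ne_zero (τ : F ≃+* F) (r m : ℕ) {g : F} (hg : g ≠ 0) (hr : 0 < r) (hm : 0 < m)
    (hτ : τ ^ r = 1) (i : ℕ) : coverSeq τ r m g hr hm hτ i ≠ 0 := by
  rw [coverSeq]
  exact (map_ne_zero_iff _ (RingEquiv.injective _)).2 (coverRoot_ne_zero τ r m hg hr hm)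

/-! ### The Galois group inside `L ≃+* L` -/

/-- `Γ = Gal(L/F)`, as a subgroup of the ring automorphisms of `L`. -/
def coverGal (τ : F ≃+* F) (r m : ℕ) (g : F) :
    Subgroup (coverField τ r m g ≃+* coverField τ r m g) where
  carrier := {σ | ∀ a : F, σ (algebraMap F (coverField τ r m g) a) =
    algebraMap F (coverField τ r m g) a}
  mul_mem' := by
    intro σ ρ hσ hρ a
    rw [RingAut.mul_apply, hρ a, hσ a]
  one_mem' := fun a => rfl
  inv_mem' := by
    intro σ hσ a
    change σ.symm _ = _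
    rw [RingEquiv.symm_apply_eq, hσ a]

theorem mem_coverGal (τ : F ≃+* F) (r m : ℕ) (g : F)
    (σ : coverField τ r m g ≃+* coverField τ r m g) :
    σ ∈ coverGal τ r m g ↔ ∀ a : F, σ (algebraMap F (coverField τ r m g) a) =
      algebraMap F (coverField τ r m g) a := Iff.rfl

/-- `hnorm` of `H12.wallG`: the lift `τ̃` normalises `Γ`. -/
theorem coverLift_conj_mem_coverGal (τ : F ≃+* F) (r m : ℕ) (g : F) (hm : 0 < m) (hτ : τ ^ r = 1) :
    ∀ σ ∈ coverGal τ r m g,
      coverLift τ r m g hm hτ * σ * (coverLift τ r m g hm hτ)⁻¹ ∈ coverGal τ r m g := by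
  intro σ hσ a
  change coverLift τ r m g hm hτ (σ ((coverLift τ r m g hm hτ).symm _)) = _
  rw [coverLift_symm_algebraMap, hσ, coverLift_algebraMap, RingEquiv.apply_symm_apply]

/-- An `F`-algebra automorphism, as an element of `Γ`. -/
theorem algEquiv_mem_coverGal (τ : F ≃+* F) (r m : ℕ) (g : F)
    (f : coverField τ r m g ≃ₐ[F] coverField τ r m g) :
    f.toRingEquiv ∈ coverGal τ r m g := fun a => f.commutes a

/-- An element of `Γ`, as an `F`-algebra automorphism. -/
def coverGalToAlgEquiv (τ : F ≃+* F) (r m : ℕ) (g : F)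
    (σ : coverField τ r m g ≃+* coverField τ r m g) (hσ : σ ∈ coverGal τ r m g) :
    coverField τ r m g ≃ₐ[F] coverField τ r m g :=
  AlgEquiv.ofRingEquiv (f := σ) hσ

@[simp]
theorem coverGalToAlgEquiv_apply (τ : F ≃+* F) (r m : ℕ) (g : F)
    (σ : coverField τ r m g ≃+* coverField τ r m g) (hσ : σ ∈ coverGal τ r m g)
    (z : coverField τ r m g) : coverGalToAlgEquiv τ r m g σ hσ z = σ z := rfl

/-- The fixed field of `Γ` is `F`. -/
theorem mem_range_of_coverGal_fixed [CharZero F] (τ : F ≃+* F) (r m : ℕ) (g : F)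
    (z : coverField τ r m g) (hz : ∀ σ ∈ coverGal τ r m g, σ z = z) :
    ∃ a : F, algebraMap F (coverField τ r m g) a = z := by
  have h : z ∈ Set.range (algebraMap F (coverField τ r m g)) := by
    rw [IsGalois.mem_range_algebraMap_iff_fixed]
    intro f
    exact hz f.toRingEquiv (algEquiv_mem_coverGal τ r m g f)
  exact h

/-! ### Kummer theory -/

/-- Every `σ ∈ Γ` multiplies an `m`-th root of an element of `F^×` by a root of unity of `F`. -/
theorem coverGal_smul_eq (τ : F ≃+* F) (r m : ℕ) (g : F) {ζ : F} (hζ : IsPrimitiveRoot ζ m)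
    (hm : 0 < m) {z : coverField τ r m g} (hz0 : z ≠ 0) {a : F}
    (hz : z ^ m = algebraMap F (coverField τ r m g) a) :
    ∀ σ ∈ coverGal τ r m g, ∃ k < m, σ z = algebraMap F (coverField τ r m g) (ζ ^ k) * z := by
  intro σ hσ
  have : NeZero m := ⟨hm.ne'⟩
  have h1 : (σ z / z) ^ m = 1 := by
    rw [div_pow, ← map_pow, hz, hσ a]
    exact div_self (by rw [← hz]; exact pow_ne_zero _ hz0)
  have hζ' : IsPrimitiveRoot (algebraMap F (coverField τ r m g) ζ) m :=
    hζ.map_of_injective (algebraMap F (coverField τ r m g)).injective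
  obtain ⟨k, hk, hk'⟩ := hζ'.eq_pow_of_pow_eq_one h1
  refine ⟨k, hk, ?_⟩
  rw [map_pow, hk', div_mul_cancel₀ _ hz0]

/-- `hζ` of `H12.wallG`: every `σ ∈ Γ` multiplies `y` by a `τ̃`-fixed root of unity. -/
theorem coverGal_smul_root (τ : F ≃+* F) (r m : ℕ) {g : F} (hg : g ≠ 0) (hr : 0 < r) (hm : 0 < m)
    (hτ : τ ^ r = 1) {ζ : F} (hζ : IsPrimitiveRoot ζ m) (hτζ : τ ζ = ζ) :
    ∀ σ ∈ coverGal τ r m g, ∃ ζ' : coverField τ r m g,
      σ (coverRoot τ r m g hr hm) = ζ' * coverRoot τ r m g hr hm ∧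
        coverLift τ r m g hm hτ ζ' = ζ' := by
  intro σ hσ
  obtain ⟨k, -, hk⟩ := coverGal_smul_eq τ r m g hζ hm (coverRoot_ne_zero τ r m hg hr hm)
    (coverRoot_pow τ r m g hr hm) σ hσ
  refine ⟨_, hk, ?_⟩
  rw [coverLift_algebraMap, map_pow, hτζ]

/-- **The Kummer conclusion**: if `τ̃ y / y` is `Γ`-invariant (the conclusion of `H12.wallG`),
then `τ g = h ^ m * g` with `h ∈ F^×`. -/
theorem exists_pow_mul_eq_of_coverGal_fixed [CharZero F] (τ : F ≃+* F) (r m : ℕ) {g : F}
    (hg : g ≠ 0) (hr : 0 < r) (hm : 0 < m) (hτ : τ ^ r = 1)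
    (hfix : ∀ σ ∈ coverGal τ r m g,
      σ (coverLift τ r m g hm hτ (coverRoot τ r m g hr hm) / coverRoot τ r m g hr hm) =
        coverLift τ r m g hm hτ (coverRoot τ r m g hr hm) / coverRoot τ r m g hr hm) :
    ∃ h : F, h ≠ 0 ∧ τ g = h ^ m * g := by
  obtain ⟨h, hh⟩ := mem_range_of_coverGal_fixed τ r m g _ hfix
  have hy0 := coverRoot_ne_zero τ r m hg hr hm
  have hg' : algebraMap F (coverField τ r m g) g ≠ 0 :=
    (map_ne_zero_iff _ (algebraMap F (coverField τ r m g)).injective).2 hg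
  have key : algebraMap F (coverField τ r m g) (h ^ m * g) =
      algebraMap F (coverField τ r m g) (τ g) := by
    rw [map_mul, map_pow, hh, div_pow, ← map_pow, coverRoot_pow, coverLift_algebraMap,
      div_mul_cancel₀ _ hg']
  have key' : h ^ m * g = τ g := (algebraMap F (coverField τ r m g)).injective key
  refine ⟨h, ?_, key'.symm⟩
  rintro rfl
  rw [zero_pow hm.ne', zero_mul] at key'
  exact hg ((map_eq_zero τ).1 key'.symm)

/-! ### Generators -/

/-- `L = F(y_0, …, y_{r-1})`. -/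
theorem adjoin_coverSeq (τ : F ≃+* F) (r m : ℕ) (g : F) (hr : 0 < r) (hm : 0 < m)
    (hτ : τ ^ r = 1) {ζ : F} (hζ : IsPrimitiveRoot ζ m) :
    IntermediateField.adjoin F
      ((fun i : Fin r => coverSeq τ r m g hr hm hτ i) '' Set.univ) = ⊤ := by
  have : NeZero m := ⟨hm.ne'⟩
  rw [eq_top_iff]
  rintro ⟨z, hz⟩ -
  induction hz using IntermediateField.adjoin_induction with
  | mem x hx =>
    have hx0 : x ∈ coverField τ r m g := IntermediateField.subset_adjoin F _ hx
    rw [mem_rootSet, aeval_coverPoly_eq_zero_iff] at hx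
    obtain ⟨-, i, hi, hxi⟩ := hx
    set K := IntermediateField.adjoin F
      ((fun i : Fin r => coverSeq τ r m g hr hm hτ i) '' Set.univ) with hK
    have hyi : coverSeq τ r m g hr hm hτ i ∈ K :=
      IntermediateField.subset_adjoin F _ ⟨⟨i, hi⟩, Set.mem_univ _, rfl⟩
    have hpow : (⟨x, hx0⟩ : coverField τ r m g) ^ m = coverSeq τ r m g hr hm hτ i ^ m := by
      rw [coverSeq_pow]
      exact Subtype.ext (by simpa using hxi)
    by_cases hg : g = 0
    · have : (⟨x, hx0⟩ : coverField τ r m g) = 0 := by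
        have h0 : (⟨x, hx0⟩ : coverField τ r m g) ^ m = 0 := by
          rw [hpow, coverSeq_pow, hg, map_zero, map_zero]
        exact pow_eq_zero_iff hm.ne' |>.1 h0
      rw [this]
      exact zero_mem _
    · have hy0 := coverSeq_ne_zero τ r m hg hr hm hτ i
      have h1 : ((⟨x, hx0⟩ : coverField τ r m g) / coverSeq τ r m g hr hm hτ i) ^ m = 1 := by
        rw [div_pow, hpow]
        exact div_self (pow_ne_zero _ hy0)
      have hζ' : IsPrimitiveRoot (algebraMap F (coverField τ r m g) ζ) m :=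
        hζ.map_of_injective (algebraMap F (coverField τ r m g)).injective
      obtain ⟨k, -, hk'⟩ := hζ'.eq_pow_of_pow_eq_one h1
      have : (⟨x, hx0⟩ : coverField τ r m g) =
          algebraMap F (coverField τ r m g) ζ ^ k * coverSeq τ r m g hr hm hτ i := by
        rw [hk', div_mul_cancel₀ _ hy0]
      rw [this]
      exact mul_mem (pow_mem (IntermediateField.algebraMap_mem _ _) _) hyi
  | algebraMap a => exact IntermediateField.algebraMap_mem _ a
  | add x y hx hy ihx ihy => exact add_mem ihx ihy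
  | inv x hx ihx => exact inv_mem ihx
  | mul x y hx hy ihx ihy => exact mul_mem ihx ihy

end

end Fermat.Agent.A2.H912
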