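import Fermat.Agent.A2.H12.GAsm
import Fermat.Agent.A2.H912.Cover

/-!
# Cell A2, route G: the leaf COVER in the exact shape of `H12.CoverConclusion` — helper912

`coverConclusion` : for `τ : F ≃+* F` of finite order compatible with `τR : R ≃+* R`, fixing the
coordinate `x`, and `g ≠ 0` with `HorDiv R m g` and `SplitAt m V g` at every sheet `V` of `F`:
`H12.CoverConclusion w x m τ g`  (the hypothesis `hCover` of `H12.algG`).

The cover is `L = coverField τ r m g = F(τ^i(g)^{1/m} : i < r)` of `Cover.lean`.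

Transport lemmas: `horDiv_map`, `splitAt_map` (`HorDiv`, `SplitAt` are stable under ring
automorphisms of `F` compatible with an automorphism of `R` / preserving sheets).
-/

set_option autoImplicit false

namespace Fermat.Agent.A2.H912

open Polynomial
open Fermat.Agent.A2.H12

universe u

section Transport

variable {R : Type u} [CommRing R] {F : Type u} [Field F] [Algebra R F]

theorem ringAut_pow_algebraMap (τ : F ≃+* F) (τR : R ≃+* R)
    (hτR : ∀ r, τ (algebraMap R F r) = algebraMap R F (τR r)) (i : ℕ) (r : R) :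
    (τ ^ i) (algebraMap R F r) = algebraMap R F ((τR ^ i) r) := by
  induction i with
  | zero => simp
  | succ i ih => rw [pow_succ', pow_succ', RingAut.mul_apply, ih, hτR, RingAut.mul_apply]

theorem ringAut_pow_dvd_iff (w : R) (τR : R ≃+* R) (hτw : ∀ r, w ∣ r ↔ w ∣ τR r) (i : ℕ)
    (r : R) : w ∣ r ↔ w ∣ (τR ^ i) r := by
  induction i with
  | zero => simp
  | succ i ih => rw [pow_succ', RingAut.mul_apply, ← hτw, ih]

theorem ringAut_pow_fix (τ : F ≃+* F) {x : F} (hτx : τ x = x) (i : ℕ) : (τ ^ i) x = x := by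
  induction i with
  | zero => simp
  | succ i ih => rw [pow_succ', RingAut.mul_apply, ih, hτx]

/-- The ring isomorphism `V.comap ψ ≃+* V` induced by a ring automorphism `ψ`. -/
def comapEquiv (ψ : F ≃+* F) (V : ValuationSubring F) :
    (V.comap (ψ : F →+* F)) ≃+* V where
  toFun a := ⟨ψ (a : F), a.2⟩
  invFun b := ⟨ψ.symm (b : F), by
    rw [ValuationSubring.mem_comap]
    change ψ (ψ.symm (b : F)) ∈ V
    rw [RingEquiv.apply_symm_apply]
    exact b.2⟩
  left_inv a := Subtype.ext (ψ.symm_apply_apply _)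
  right_inv b := Subtype.ext (ψ.apply_symm_apply _)
  map_mul' a b := Subtype.ext (map_mul ψ _ _)
  map_add' a b := Subtype.ext (map_add ψ _ _)

/-- `HorDiv` is stable under ring automorphisms of `F` compatible with an automorphism of `R`. -/
theorem horDiv_map (m : ℕ) (ψ : F ≃+* F) (ρ : R ≃+* R)
    (hψR : ∀ r, ψ (algebraMap R F r) = algebraMap R F (ρ r)) {g : F} (h : HorDiv R m g) :
    HorDiv R m (ψ g) := by
  intro V hV hVR
  have hV' : IsDiscreteValuationRing (V.comap (ψ : F →+* F)) :=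
    IsDiscreteValuationRing.RingEquivClass.isDiscreteValuationRing (comapEquiv ψ V).symm
  obtain ⟨h₀, u, hh₀, hu, hu', hg⟩ := h (V.comap (ψ : F →+* F)) hV' (by
    intro r hr
    have hρ : ρ r ≠ 0 := fun h0 => hr ((map_eq_zero_iff ρ ρ.injective).1 h0)
    obtain ⟨h1, h2⟩ := hVR (ρ r) hρ
    refine ⟨?_, ?_⟩
    · rw [ValuationSubring.mem_comap]
      change ψ (algebraMap R F r) ∈ V
      rw [hψR]
      exact h1
    · rw [ValuationSubring.mem_comap]
      change ψ (algebraMap R F r)⁻¹ ∈ V
      rw [map_inv₀, hψR]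
      exact h2)
  refine ⟨ψ h₀, ψ u, fun h0 => hh₀ ((map_eq_zero_iff ψ ψ.injective).1 h0), hu, ?_, ?_⟩
  · rw [← map_inv₀]
    exact hu'
  · rw [hg, map_mul, map_pow]

/-- `SplitAt` at `V` for `ψ g` follows from `SplitAt` at `V.comap ψ` for `g`. -/
theorem splitAt_map (m : ℕ) (ψ : F ≃+* F) (V : ValuationSubring F) {g : F}
    (h : SplitAt m (V.comap (ψ : F →+* F)) g) : SplitAt m V (ψ g) := by
  obtain ⟨u, hu, hu', hg⟩ := h
  refine ⟨ψ u, hu, ?_, ?_⟩
  · rw [← map_inv₀]
    exact hu'
  · rw [mem_nonunits_comap] at hg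
    simpa using hg

end Transport

section Main

variable {R : Type u} [CommRing R] {F : Type u} [Field F] [Algebra R F]

theorem adjoin_range_coverSeq (τ : F ≃+* F) (r m : ℕ) (g : F) (hr : 0 < r) (hm : 0 < m)
    (hτ : τ ^ r = 1) {ζ : F} (hζ : IsPrimitiveRoot ζ m) :
    IntermediateField.adjoin F
      (Set.range (fun i : Fin r => coverSeq τ r m g hr hm hτ i)) = ⊤ := by
  rw [← Set.image_univ]
  exact adjoin_coverSeq τ r m g hr hm hτ hζ

/-- **Leaf COVER of route G** (`hCover` of `H12.algG`). -/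
theorem coverConclusion [CharZero F] (w : R) (x : F) (m : ℕ) (τ : F ≃+* F) (τR : R ≃+* R)
    (hinj : Function.Injective (algebraMap R F)) (hm : 0 < m)
    (hroot : ∃ ζ : R, IsPrimitiveRoot ζ m)
    (hτx : τ x = x) (hτR : ∀ r, τ (algebraMap R F r) = algebraMap R F (τR r))
    (hτw : ∀ r, w ∣ r ↔ w ∣ τR r)
    {r : ℕ} (hr : 0 < r) (hτr : τ ^ r = 1)
    (g : F) (hg : g ≠ 0) (hdiv : HorDiv R m g)
    (hsplit : ∀ V : ValuationSubring F, IsSheet w x V → SplitAt m V g) :
    CoverConclusion w x m τ g := by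
  obtain ⟨ζ, hζ⟩ := hroot
  have hζF : IsPrimitiveRoot (algebraMap R F ζ) m := hζ.map_of_injective hinj
  let algRL : Algebra R (coverField τ r m g) :=
    ((algebraMap F (coverField τ r m g)).comp (algebraMap R F)).toAlgebra
  have tower : IsScalarTower R F (coverField τ r m g) :=
    IsScalarTower.of_algebraMap_eq (fun _ => rfl)
  refine ⟨coverField τ r m g, inferInstance, inferInstance, algRL, tower, ?_,
    coverLift τ r m g hm hτr, coverRoot τ r m g hr hm,
    fun f => coverLift_algebraMap τ r m g hm hτr f, coverRoot_pow τ r m g hr hm⟩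
  refine ⟨inferInstance, inferInstance, r, fun i => coverSeq τ r m g hr hm hτr i,
    fun i => (τ ^ (i : ℕ)) g, ?_, ?_, ?_, ?_, ?_⟩
  · intro i
    exact (map_ne_zero_iff _ (RingEquiv.injective _)).2 hg
  · intro i
    exact coverSeq_pow τ r m g hr hm hτr i
  · exact adjoin_range_coverSeq τ r m g hr hm hτr hζF
  · intro i
    exact horDiv_map m (τ ^ (i : ℕ)) (τR ^ (i : ℕ))
      (fun a => ringAut_pow_algebraMap τ τR hτR i a) hdiv
  · intro i V hV
    refine splitAt_map m (τ ^ (i : ℕ)) V (hsplit _ ?_)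
    exact hV.comap (τ ^ (i : ℕ)) (τR ^ (i : ℕ)) (fun a => ringAut_pow_algebraMap τ τR hτR i a)
      (fun a => ringAut_pow_dvd_iff w τR hτw i a) (ringAut_pow_fix τ hτx i)

/-- **Route G, ALG assembly with the leaf COVER discharged**: `H12.algG` for `τ` of finite order,
with `hCover` replaced by `HorDiv` + `SplitAt` for `g`. -/
theorem algG_of_finite_order [IsDomain R] [IsNoetherianRing R] [IsIntegrallyClosed R[X]]
    [CharZero F] (w : R) (x : F) (m : ℕ) (τ : F ≃+* F) (τR : R ≃+* R)
    (hinj : Function.Injective (algebraMap R F)) (hx : Transcendental R x) (hw : Prime w)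
    (hm : 0 < m) (hroot : ∃ ζ : R, IsPrimitiveRoot ζ m ∧ τR ζ = ζ)
    (hτx : τ x = x) (hτR : ∀ r, τ (algebraMap R F r) = algebraMap R F (τR r))
    (hτw : ∀ r, w ∣ r ↔ w ∣ τR r)
    (hτV : ∀ V : ValuationSubring F, IsSheet w x V → ∀ c : F,
      (c ∈ V ↔ τ c ∈ V) ∧ (c ∈ V → τ c - c ∈ V.nonunits))
    (hsheet : ∃ V : ValuationSubring F, IsSheet w x V)
    (hSheets : ∀ (L : Type u) [Field L] [Algebra F L] [Algebra R L] [IsScalarTower R F L],
      IsKummerSplit L w x m → SheetsConclusion L w x)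
    (hRed : ∀ (L : Type u) [Field L] [Algebra F L] [Algebra R L] [IsScalarTower R F L],
      IsKummerSplit L w x m → RedConclusion L w x)
    (hConst : ∀ (L : Type u) [Field L] [Algebra F L] [Algebra R L] [IsScalarTower R F L],
      IsKummerSplit L w x m → ConstConclusion (R := R) L x)
    (hCount : ∀ (L : Type u) [Field L] [Algebra F L] [Algebra R L] [IsScalarTower R F L],
      IsKummerSplit L w x m → CountConclusion L w x)
    {r : ℕ} (hr : 0 < r) (hτr : τ ^ r = 1)
    (g : F) (hg : g ≠ 0) (hdiv : HorDiv R m g)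
    (hsplit : ∀ V : ValuationSubring F, IsSheet w x V → SplitAt m V g) :
    ∃ z : F, τ g = z ^ m * g :=
  algG w x m τ τR hinj hx hw hm hroot hτx hτR hτw hτV hsheet hSheets hRed hConst hCount g hg
    (coverConclusion w x m τ τR hinj hm (hroot.imp fun _ h => h.1) hτx hτR hτw hr hτr g hg hdiv
      hsplit)

end Main

end Fermat.Agent.A2.H912
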