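import Fermat.Agent.A2.H12.RootLeaf
import Fermat.Agent.A2.H912.CoverG

/-!
# Cell A2, route G: the leaf COVER in the frozen shape `H12.CoverLeaf` — helper912

`coverLeaf : Fermat.Agent.A2.H12.CoverLeaf` (hypothesis `hCover` of `H12.algSS_of_leaves`).

Proof: `coverConclusion` (`CoverG.lean`: the cover is the splitting field of
`∏_{i<r} (X^m - τ^i g)` inside an algebraic closure of `F`, `r` the order of `τ`), with the
primitive `m`-th root of unity of `R` from `H12.rootLeaf`.
-/

set_option autoImplicit false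

namespace Fermat.Agent.A2.H912

open Fermat.Agent.A2 Fermat.Agent.A2.H12

theorem ringAut_pow_eq_one_of_iterate {F : Type*} [Field F] (τ : F ≃+* F) {r : ℕ}
    (h : ∀ f : F, (⇑τ)^[r] f = f) : τ ^ r = 1 := by
  have key : ∀ (n : ℕ) (f : F), (τ ^ n) f = (⇑τ)^[n] f := by
    intro n
    induction n with
    | zero => intro f; simp
    | succ n ih =>
      intro f
      rw [pow_succ, RingAut.mul_apply, ih, Function.iterate_succ_apply]
  ext f
  rw [key, h]
  rfl

/-- **Leaf COVER** of route G. -/
theorem coverLeaf : CoverLeaf := by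
  intro R E F _ _ _ _ _ _ _ _ _ _ _ _ _ w q m x Bf Bi τ τE τR ctx g hg hdiv hsplit
  have Rt := rootLeaf w q m x Bf Bi τ τE τR ctx
  have hinjRE : Function.Injective (algebraMap R E) := IsFractionRing.injective R E
  have hinj : Function.Injective (algebraMap R F) := by
    rw [IsScalarTower.algebraMap_eq R E F]
    exact (algebraMap E F).injective.comp hinjRE
  have : CharZero F := charZero_of_injective_algebraMap (algebraMap E F).injective
  have hτRF : ∀ r, τ (algebraMap R F r) = algebraMap R F (τR r) := by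
    intro r
    rw [IsScalarTower.algebraMap_apply R E F, ctx.hτE, ctx.hτR,
      ← IsScalarTower.algebraMap_apply]
  have hdvd : ∀ r : R, w ∣ r ↔ ¬ IsUnit r := by
    intro r
    rw [← Ideal.mem_span_singleton, ← ctx.irr.maximalIdeal_eq, IsLocalRing.mem_maximalIdeal,
      mem_nonunits_iff]
  have hτw : ∀ r, w ∣ r ↔ w ∣ τR r := by
    intro r
    rw [hdvd, hdvd]
    exact not_congr (MulEquiv.isUnit_map (τR : R ≃* R)).symm
  obtain ⟨r, hr, hfo⟩ := ctx.hfo
  exact coverConclusion w x m τ τR hinj ctx.mpos (Rt.root.imp fun _ h => h.1) ctx.hτx hτRF hτw hr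
    (ringAut_pow_eq_one_of_iterate τ hfo) g hg hdiv hsplit

end Fermat.Agent.A2.H912
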