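import Fermat.Agent.A2.H12.AlgLeavesU
import Fermat.Agent.A2.H912.CoverLeaf

/-!
# Cell A2, route G: the CORRECTED leaf COVER `H12.CoverLeafU` — helper912

`coverLeafU : Fermat.Agent.A2.H12.CoverLeafU` (hypothesis `hCover` of `H12.algSS_of_leavesU`).

Same proof as `coverLeaf` (`CoverLeaf.lean`) with `SplitAtU` (`u ≠ 0`) in place of `SplitAt`:
the cover is `L = F(τ^i(g)^{1/m} : i < r)` (`Cover.lean`), `r` the order of `τ`;
`SplitAtU` is transported along `τ^i` by `splitAtU_map`.
-/

set_option autoImplicit false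

namespace Fermat.Agent.A2.H912

open Fermat.Agent.A2 Fermat.Agent.A2.H12

universe u

section Main

variable {R : Type u} [CommRing R] {F : Type u} [Field F] [Algebra R F]

/-- `SplitAtU` at `V` for `ψ g` follows from `SplitAtU` at `V.comap ψ` for `g`. -/
theorem splitAtU_map (m : ℕ) (ψ : F ≃+* F) (V : ValuationSubring F) {g : F}
    (h : SplitAtU m (V.comap (ψ : F →+* F)) g) : SplitAtU m V (ψ g) := by
  obtain ⟨u, hu0, hu, hu', hg⟩ := h
  refine ⟨ψ u, (map_ne_zero_iff _ ψ.injective).2 hu0, hu, ?_, ?_⟩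
  · rw [← map_inv₀]
    exact hu'
  · rw [mem_nonunits_comap] at hg
    simpa using hg

/-- **Leaf COVER of route G, corrected form** (`hCover` of `H12.algG` with `SplitAtU`). -/
theorem coverConclusionU [CharZero F] (w : R) (x : F) (m : ℕ) (τ : F ≃+* F) (τR : R ≃+* R)
    (hinj : Function.Injective (algebraMap R F)) (hm : 0 < m)
    (hroot : ∃ ζ : R, IsPrimitiveRoot ζ m)
    (hτx : τ x = x) (hτR : ∀ r, τ (algebraMap R F r) = algebraMap R F (τR r))
    (hτw : ∀ r, w ∣ r ↔ w ∣ τR r)
    {r : ℕ} (hr : 0 < r) (hτr : τ ^ r = 1)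
    (g : F) (hg : g ≠ 0) (hdiv : HorDiv R m g)
    (hsplit : ∀ V : ValuationSubring F, IsSheet w x V → SplitAtU m V g) :
    CoverConclusionU w x m τ g := by
  obtain ⟨ζ, hζ⟩ := hroot
  have hζF : IsPrimitiveRoot (algebraMap R F ζ) m := hζ.map_of_injective hinj
  let algRL : Algebra R (coverField τ r m g) :=
    ((algebraMap F (coverField τ r m g)).comp (algebraMap R F)).toAlgebra
  have tower : IsScalarTower R F (coverField τ r m g) :=
    IsScalarTower.of_algebraMap_eq (fun _ => rfl)
  refine ⟨coverField τ r m g, inferInstance, inferInstance, algRL, tower, ?_,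
    coverLift τ r m g hm hτr, coverRoot τ r m g hr hm,
    fun f => coverLift_algebraMap τ r m g hm hτr f, coverRoot_pow τ r m g hr hm⟩
  refine ⟨inferInstance, inferInstance, r, fun i => coverSeq τ r m g hr hm hτr i,
    fun i => (τ ^ (i : ℕ)) g, ?_, ?_, ?_, ?_, ?_⟩
  · intro i
    exact (map_ne_zero_iff _ (RingEquiv.injective _)).2 hg
  · intro i
    exact coverSeq_pow τ r m g hr hm hτr i
  · exact adjoin_range_coverSeq τ r m g hr hm hτr hζF
  · intro i
    exact horDiv_map m (τ ^ (i : ℕ)) (τR ^ (i : ℕ))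
      (fun a => ringAut_pow_algebraMap τ τR hτR i a) hdiv
  · intro i V hV
    refine splitAtU_map m (τ ^ (i : ℕ)) V (hsplit _ ?_)
    exact hV.comap (τ ^ (i : ℕ)) (τR ^ (i : ℕ)) (fun a => ringAut_pow_algebraMap τ τR hτR i a)
      (fun a => ringAut_pow_dvd_iff w τR hτw i a) (ringAut_pow_fix τ hτx i)

end Main

/-- **Leaf COVER** of route G, corrected form. -/
theorem coverLeafU : CoverLeafU := by
  intro R E F _ _ _ _ _ _ _ _ _ _ _ _ _ w q m x Bf Bi τ τE τR ctx g hg hdiv hsplit
  have Rt := rootLeaf w q m x Bf Bi τ τE τR ctx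
  have hinjRE : Function.Injective (algebraMap R E) := IsFractionRing.injective R E
  have hinj : Function.Injective (algebraMap R F) := by
    rw [IsScalarTower.algebraMap_eq R E F]
    exact (algebraMap E F).injective.comp hinjRE
  have : CharZero F := charZero_of_injective_algebraMap (algebraMap E F).injective
  have hτRF : ∀ r, τ (algebraMap R F r) = algebraMap R F (τR r) := by
    intro r
    rw [IsScalarTower.algebraMap_apply R E F, ctx.hτE, ctx.hτR,
      ← IsScalarTower.algebraMap_apply]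
  have hdvd : ∀ r : R, w ∣ r ↔ ¬ IsUnit r := by
    intro r
    rw [← Ideal.mem_span_singleton, ← ctx.irr.maximalIdeal_eq, IsLocalRing.mem_maximalIdeal,
      mem_nonunits_iff]
  have hτw : ∀ r, w ∣ r ↔ w ∣ τR r := by
    intro r
    rw [hdvd, hdvd]
    exact not_congr (MulEquiv.isUnit_map (τR : R ≃* R)).symm
  obtain ⟨r, hr, hfo⟩ := ctx.hfo
  exact coverConclusionU w x m τ τR hinj ctx.mpos (Rt.root.imp fun _ h => h.1) ctx.hτx hτRF hτw
    hr (ringAut_pow_eq_one_of_iterate τ hfo) g hg hdiv hsplit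

end Fermat.Agent.A2.H912
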