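import Fermat.Agent.A2.H912.CoverG

/-!
# Cell A2, route G: STEP 1 — helper912

Setting of `H12.algG` (`GSpec` language).  For `f ≠ 0` with `HorDiv R m f` the element
`g := τ f / f` satisfies the hypotheses of the leaf COVER:

* `horDiv_step1`  : `HorDiv R m (τ f / f)`;
* `splitAt_step1` : `SplitAt m V (τ f / f)` at every sheet `V` of `F`, provided the sheets of `F`
  are discrete with uniformiser `w` (`hdisc`), the units of `R` are `m`-th powers (`hpow`), and
  `τ` is the identity on the residue fields of the sheets (`hτV`);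
* `algG_step1`    : `H12.algG` applied to `g = τ f / f`, with COVER discharged by
  `coverConclusion`:  `∃ z, τ (τ f / f) = z ^ m * (τ f / f)`;
* `algG_step1'`   : the same conclusion in the form of `AlgSSConclusion`:
  `∃ h ≠ 0, τ (τ f) * f = h ^ m * (τ f) ^ 2`.
-/

set_option autoImplicit false

namespace Fermat.Agent.A2.H912

open Polynomial
open Fermat.Agent.A2.H12

universe u

section Step1

variable {R : Type u} [CommRing R] {F : Type u} [Field F] [Algebra R F]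

/-- `HorDiv` is stable under quotients. -/
theorem horDiv_div (m : ℕ) {f₁ f₂ : F} (h₁ : HorDiv R m f₁) (h₂ : HorDiv R m f₂) :
    HorDiv R m (f₁ / f₂) := by
  intro V hV hVR
  obtain ⟨a₁, u₁, ha₁, hu₁, hu₁', hf₁⟩ := h₁ V hV hVR
  obtain ⟨a₂, u₂, ha₂, hu₂, hu₂', hf₂⟩ := h₂ V hV hVR
  refine ⟨a₁ / a₂, u₁ * u₂⁻¹, div_ne_zero ha₁ ha₂, V.mul_mem _ _ hu₁ hu₂', ?_, ?_⟩
  · rw [mul_inv, inv_inv]
    exact V.mul_mem _ _ hu₁' hu₂
  · rw [hf₁, hf₂, div_pow]
    by_cases hu : u₂ = 0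
    · simp [hu]
    · field_simp

/-- `HorDiv R m (τ f / f)`. -/
theorem horDiv_step1 (m : ℕ) (τ : F ≃+* F) (τR : R ≃+* R)
    (hτR : ∀ r, τ (algebraMap R F r) = algebraMap R F (τR r)) {f : F} (hdiv : HorDiv R m f) :
    HorDiv R m (τ f / f) :=
  horDiv_div m (horDiv_map m τ τR hτR hdiv) hdiv

/-- `τR w = w * c` with `c` a unit. -/
theorem exists_unit_mul_of_dvd_iff [IsDomain R] {w : R} (hw0 : w ≠ 0) (τR : R ≃+* R)
    (hτw : ∀ r, w ∣ r ↔ w ∣ τR r) : ∃ c : R, IsUnit c ∧ τR w = w * c := by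
  obtain ⟨c, hc⟩ := (hτw w).1 dvd_rfl
  have h2 : w ∣ τR.symm w := by
    rw [hτw, RingEquiv.apply_symm_apply]
  obtain ⟨d, hd⟩ := h2
  refine ⟨c, ?_, hc⟩
  have h3 : w * (c * τR d) = w * 1 := by
    have := congrArg τR hd
    rw [RingEquiv.apply_symm_apply, map_mul, hc] at this
    rw [mul_one, ← mul_assoc]
    exact this.symm
  exact IsUnit.of_mul_eq_one _ (mul_left_cancel₀ hw0 h3)

theorem zpow_mem_of_mem_of_inv_mem (V : ValuationSubring F) {a : F} (ha : a ∈ V)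
    (ha' : a⁻¹ ∈ V) (n : ℤ) : a ^ n ∈ V := by
  cases n with
  | ofNat k =>
    rw [Int.ofNat_eq_natCast, zpow_natCast]
    exact pow_mem ha k
  | negSucc k =>
    rw [zpow_negSucc, ← inv_pow]
    exact pow_mem ha' _

theorem inv_algebraMap_mem_of_isUnit {w : R} {x : F} {V : ValuationSubring F}
    (hV : IsSheet w x V) {c : R} (hc : IsUnit c) : (algebraMap R F c)⁻¹ ∈ V := by
  obtain ⟨c', hc'⟩ := hc.exists_right_inv
  have h1 : algebraMap R F c * algebraMap R F c' = 1 := by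
    rw [← map_mul, hc', map_one]
  rw [inv_eq_of_mul_eq_one_right h1]
  exact hV.1 c'

/-- `SplitAt m V (τ f / f)` at a sheet `V` of `F`. -/
theorem splitAt_step1 [IsDomain R] (w : R) (x : F) (m : ℕ) (τ : F ≃+* F) (τR : R ≃+* R)
    (hinj : Function.Injective (algebraMap R F)) (hw0 : w ≠ 0) (hm : 0 < m)
    (hτR : ∀ r, τ (algebraMap R F r) = algebraMap R F (τR r))
    (hτw : ∀ r, w ∣ r ↔ w ∣ τR r)
    (hpow : ∀ u : R, IsUnit u → ∃ v : R, v ^ m = u)
    (V : ValuationSubring F) (hV : IsSheet w x V)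
    (hτV : ∀ c : F, c ∈ V → τ c - c ∈ V.nonunits)
    (hdisc : ∀ f : F, f ≠ 0 → ∃ (a : ℤ) (f₀ : F), f₀ ∈ V ∧ f₀⁻¹ ∈ V ∧
      f = algebraMap R F w ^ a * f₀)
    {f : F} (hf : f ≠ 0) : SplitAt m V (τ f / f) := by
  obtain ⟨a, f₀, hf₀, hf₀', hff⟩ := hdisc f hf
  obtain ⟨c, hc, hcw⟩ := exists_unit_mul_of_dvd_iff hw0 τR hτw
  obtain ⟨v, hv⟩ := hpow c hc
  have hvu : IsUnit v := (isUnit_pow_iff hm.ne').1 (hv ▸ hc)
  have hW0 : algebraMap R F w ≠ 0 := fun h => hw0 (hinj (by rw [h, map_zero]))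
  have hf₀0 : f₀ ≠ 0 := by
    rintro rfl
    rw [mul_zero] at hff
    exact hf hff
  have hτW : τ (algebraMap R F w) = algebraMap R F w * algebraMap R F c := by
    rw [hτR, hcw, map_mul]
  have hCv : algebraMap R F c = algebraMap R F v ^ m := by
    rw [← map_pow, hv]
  have hu : algebraMap R F v ^ a ∈ V :=
    zpow_mem_of_mem_of_inv_mem V (hV.1 v) (inv_algebraMap_mem_of_isUnit hV hvu) a
  have hu' : (algebraMap R F v ^ a)⁻¹ ∈ V := by
    rw [← inv_zpow]
    refine zpow_mem_of_mem_of_inv_mem V (inv_algebraMap_mem_of_isUnit hV hvu) ?_ a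
    rw [inv_inv]
    exact hV.1 v
  refine ⟨algebraMap R F v ^ a, hu, hu', ?_⟩
  have key : τ f / f - (algebraMap R F v ^ a) ^ m =
      ((algebraMap R F v ^ a) ^ m * f₀⁻¹) * (τ f₀ - f₀) := by
    have e1 : (algebraMap R F v ^ a) ^ m = algebraMap R F c ^ a := by
      rw [hCv, ← zpow_natCast, ← zpow_natCast, ← zpow_mul, ← zpow_mul, mul_comm]
    rw [e1, hff, map_mul, map_zpow₀, hτW, mul_zpow]
    have hWa : algebraMap R F w ^ a ≠ 0 := zpow_ne_zero a hW0
    field_simp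
  rw [key]
  exact mul_mem_nonunits V (hτV f₀ hf₀) (V.mul_mem _ _ (pow_mem hu m) hf₀')

/-- **Route G: `H12.algG` applied to `g = τ f / f`**, leaf COVER and STEP 1 discharged. -/
theorem algG_step1 [IsDomain R] [IsNoetherianRing R] [IsIntegrallyClosed R[X]] [CharZero F]
    (w : R) (x : F) (m : ℕ) (τ : F ≃+* F) (τR : R ≃+* R)
    (hinj : Function.Injective (algebraMap R F)) (hx : Transcendental R x) (hw : Prime w)
    (hm : 0 < m) (hroot : ∃ ζ : R, IsPrimitiveRoot ζ m ∧ τR ζ = ζ)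
    (hτx : τ x = x) (hτR : ∀ r, τ (algebraMap R F r) = algebraMap R F (τR r))
    (hτw : ∀ r, w ∣ r ↔ w ∣ τR r)
    (hτV : ∀ V : ValuationSubring F, IsSheet w x V → ∀ c : F,
      (c ∈ V ↔ τ c ∈ V) ∧ (c ∈ V → τ c - c ∈ V.nonunits))
    (hsheet : ∃ V : ValuationSubring F, IsSheet w x V)
    (hSheets : ∀ (L : Type u) [Field L] [Algebra F L] [Algebra R L] [IsScalarTower R F L],
      IsKummerSplit L w x m → SheetsConclusion L w x)
    (hRed : ∀ (L : Type u) [Field L] [Algebra F L] [Algebra R L] [IsScalarTower R F L],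
      IsKummerSplit L w x m → RedConclusion L w x)
    (hConst : ∀ (L : Type u) [Field L] [Algebra F L] [Algebra R L] [IsScalarTower R F L],
      IsKummerSplit L w x m → ConstConclusion (R := R) L x)
    (hCount : ∀ (L : Type u) [Field L] [Algebra F L] [Algebra R L] [IsScalarTower R F L],
      IsKummerSplit L w x m → CountConclusion L w x)
    {r : ℕ} (hr : 0 < r) (hτr : τ ^ r = 1)
    (hpow : ∀ u : R, IsUnit u → ∃ v : R, v ^ m = u)
    (hdisc : ∀ V : ValuationSubring F, IsSheet w x V → ∀ f : F, f ≠ 0 →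
      ∃ (a : ℤ) (f₀ : F), f₀ ∈ V ∧ f₀⁻¹ ∈ V ∧ f = algebraMap R F w ^ a * f₀)
    (f : F) (hf : f ≠ 0) (hdiv : HorDiv R m f) :
    ∃ z : F, τ (τ f / f) = z ^ m * (τ f / f) := by
  have hτf : τ f ≠ 0 := (map_ne_zero_iff _ τ.injective).2 hf
  exact algG_of_finite_order w x m τ τR hinj hx hw hm hroot hτx hτR hτw hτV hsheet hSheets hRed
    hConst hCount hr hτr (τ f / f) (div_ne_zero hτf hf) (horDiv_step1 m τ τR hτR hdiv)
    (fun V hV => splitAt_step1 w x m τ τR hinj hw.ne_zero hm hτR hτw hpow V hV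
      (fun c hc => (hτV V hV c).2 hc) (hdisc V hV) hf)

/-- The same, with the conclusion in the form of `A2.AlgSSConclusion`. -/
theorem algG_step1' [IsDomain R] [IsNoetherianRing R] [IsIntegrallyClosed R[X]] [CharZero F]
    (w : R) (x : F) (m : ℕ) (τ : F ≃+* F) (τR : R ≃+* R)
    (hinj : Function.Injective (algebraMap R F)) (hx : Transcendental R x) (hw : Prime w)
    (hm : 0 < m) (hroot : ∃ ζ : R, IsPrimitiveRoot ζ m ∧ τR ζ = ζ)
    (hτx : τ x = x) (hτR : ∀ r, τ (algebraMap R F r) = algebraMap R F (τR r))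
    (hτw : ∀ r, w ∣ r ↔ w ∣ τR r)
    (hτV : ∀ V : ValuationSubring F, IsSheet w x V → ∀ c : F,
      (c ∈ V ↔ τ c ∈ V) ∧ (c ∈ V → τ c - c ∈ V.nonunits))
    (hsheet : ∃ V : ValuationSubring F, IsSheet w x V)
    (hSheets : ∀ (L : Type u) [Field L] [Algebra F L] [Algebra R L] [IsScalarTower R F L],
      IsKummerSplit L w x m → SheetsConclusion L w x)
    (hRed : ∀ (L : Type u) [Field L] [Algebra F L] [Algebra R L] [IsScalarTower R F L],
      IsKummerSplit L w x m → RedConclusion L w x)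
    (hConst : ∀ (L : Type u) [Field L] [Algebra F L] [Algebra R L] [IsScalarTower R F L],
      IsKummerSplit L w x m → ConstConclusion (R := R) L x)
    (hCount : ∀ (L : Type u) [Field L] [Algebra F L] [Algebra R L] [IsScalarTower R F L],
      IsKummerSplit L w x m → CountConclusion L w x)
    {r : ℕ} (hr : 0 < r) (hτr : τ ^ r = 1)
    (hpow : ∀ u : R, IsUnit u → ∃ v : R, v ^ m = u)
    (hdisc : ∀ V : ValuationSubring F, IsSheet w x V → ∀ f : F, f ≠ 0 →
      ∃ (a : ℤ) (f₀ : F), f₀ ∈ V ∧ f₀⁻¹ ∈ V ∧ f = algebraMap R F w ^ a * f₀)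
    (f : F) (hf : f ≠ 0) (hdiv : HorDiv R m f) :
    ∃ h : F, h ≠ 0 ∧ τ (τ f) * f = h ^ m * (τ f) ^ 2 := by
  obtain ⟨z, hz⟩ := algG_step1 w x m τ τR hinj hx hw hm hroot hτx hτR hτw hτV hsheet hSheets hRed
    hConst hCount hr hτr hpow hdisc f hf hdiv
  have hτf : τ f ≠ 0 := (map_ne_zero_iff _ τ.injective).2 hf
  have hττf : τ (τ f) ≠ 0 := (map_ne_zero_iff _ τ.injective).2 hτf
  rw [map_div₀] at hz
  refine ⟨z, ?_, ?_⟩
  · rintro rfl
    rw [zero_pow hm.ne', zero_mul] at hz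
    exact div_ne_zero hττf hτf hz
  · field_simp at hz
    linear_combination hz

end Step1

end Fermat.Agent.A2.H912
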